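import Fermat.Agent.S48.Mid.Kummer
import Fermat.Agent.S48.G1.ProdArith
import Fermat.Agent.S48.RHO.Main
import Fermat.Agent.S48.W1

/-!
# S48 / Mid : Theorem A' (`exists_residual`) from Theorem A (`RHO.theoremA`)

Inputs: `exists_kummer1` (geometry), `W1.exists_integral_model`, `PER1.formOps`, chapter G1 (`Prod`, `ProdArith`).

`g` = integral model of `f` (`D a_n(g) ∈ ℤ̄`), `M = N ℓ`, `h = D g G_1 ∈ S₂(±Γ₁(M))`, `⟨u⟩ h = D ε(u) g G_u ≡ δ(u) c`,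
`c_n = (2/3) φ(D a_n(g))`, `δ(u) = φ(ε(u))/u`.
-/

set_option autoImplicit false

open UpperHalfPlane ModularForm CongruenceSubgroup
open scoped MatrixGroups Manifold

namespace Fermat.Agent.S48.Mid

variable {N : ℕ} [NeZero N] {ε : DirichletCharacter ℂ N}

/-- **Theorem A'.** -/
theorem exists_residual {f : CuspForm (Gamma1 N) 1} (hf : IsEigen N ε f) :
    ∃ ℓ₀ : ℕ, ∀ ℓ : ℕ, ℓ.Prime → ℓ₀ ≤ ℓ → ∀ (K : Type) [Field K] [IsAlgClosed K] [CharP K ℓ]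
      (φ : Zb →+* K),
      ∃ ρ : GQ →* GL (Fin 2) K, IsResidual N ε f ℓ φ ρ := by
  classical
  obtain ⟨g, D, hD, hg, hgp, hint, hchar⟩ := W1.exists_integral_model hf
  refine ⟨max 5 (D + 1), fun ℓ hℓ hℓ₀ K _ _ _ φ => ?_⟩
  have h5 : 5 ≤ ℓ := le_trans (le_max_left _ _) hℓ₀
  have hDℓ : D < ℓ := lt_of_lt_of_le (Nat.lt_succ_self D) (le_trans (le_max_right _ _) hℓ₀)
  haveI : Fact ℓ.Prime := ⟨hℓ⟩
  haveI : NeZero (N * ℓ) := ⟨mul_ne_zero (NeZero.ne N) hℓ.ne_zero⟩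
  have h1ℓ : ¬ (ℓ : ℤ) ∣ 1 := by
    intro h
    have := Int.le_of_dvd one_pos h
    omega
  obtain ⟨h, hh⟩ := G1.exists_prod hℓ h5 g hchar (D : ℂ) h1ℓ (GamS (N * ℓ))
    (fun γ hγ => (mem_GamS.1 hγ).2)
  obtain ⟨𝒦⟩ := @exists_kummer1 (N * ℓ) ℓ _ (condSelf (N * ℓ)) hℓ
  have hc1 : G1.cK φ D g 1 ≠ 0 := G1.cK_one_ne_zero φ hℓ h5 hD hDℓ hg.one
  have hrel := G1.eigRel_prod φ hℓ hg hint
  have hcong := G1.cong_prod φ hℓ h5 hchar hint (GamS (N * ℓ)) hh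
  obtain ⟨ρ, hlev, hss, hgood⟩ := RHO.theoremA (PER1.formOps (N * ℓ) (GamS (N * ℓ)) ℓ) 𝒦 φ
    (G1.delta ε ℓ φ) (G1.cK φ D g) (G1.aK φ g) hc1 hrel h hcong
  refine ⟨ρ, hlev, hss, fun r hr hrNℓ x e hx he => ?_⟩
  have hrN : ¬ r ∣ N := fun h' => hrNℓ (h'.mul_right ℓ)
  have hrℓ : ¬ r ∣ ℓ := fun h' => hrNℓ (h'.mul_left N)
  have hgd : RHO.Good (N * ℓ) ℓ r :=
    ⟨hr, fun h' => (hr.dvd_mul.1 h').elim hrNℓ hrℓ⟩
  obtain ⟨u, hu⟩ := RHO.exists_unit_of_good hgd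
  have h1 := hgood r hgd u hu
  have ha : G1.aK φ g r = φ x := by
    rw [G1.aK, hgp r hr hrN, ← hx, G1.aZ_coe]
  rw [ha] at h1
  have hue : (((r : ℕ) : ℤ) : ZMod (N * ℓ)) = u := by rw [hu]; simp
  have hrK : (((r : ℕ) : ℤ) : K) ≠ 0 := G1.cast_ne_zero_of_unit (N := N) ℓ u hue
  have h2 : (r : K) * (G1.delta ε ℓ φ u : K) = φ e := by
    rw [G1.coe_delta ε ℓ φ u hue]
    have h3 : G1.epsZ ε (((r : ℕ) : ℤ) : ZMod N) = e := by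
      apply Subtype.ext
      rw [G1.coe_epsZ, he]
      simp
    rw [h3]
    have h4 : (r : K) = (((r : ℕ) : ℤ) : K) := by simp
    rw [h4]
    field_simp
  rwa [h2] at h1

end Fermat.Agent.S48.Mid
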