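import Fermat.Agent.S48.PER1.Main
import Fermat.Agent.S48.T24.Defs
import Fermat.Agent.S48.PER1.GamInst

/-!
# S48 / Mid : the group `±Γ₁(M)` as an instance of the two interfaces (`T24.Gam`, `PER1.IsMid`)
-/

set_option autoImplicit false

open CongruenceSubgroup
open scoped MatrixGroups

namespace Fermat.Agent.S48.Mid

/-- the `Γ₁`-part of the level is the whole level. -/
@[reducible] def condSelf (M : ℕ) : T24.Cond M := ⟨M, dvd_rfl⟩

/-- `±Γ₁(M)`. -/
def GamS (M : ℕ) : Subgroup SL(2, ℤ) := @T24.Gam M (condSelf M)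

instance isMid_GamS (M : ℕ) : PER1.IsMid M (GamS M) := @PER1.isMid_Gam M (condSelf M)

theorem mem_GamS {M : ℕ} {γ : SL(2, ℤ)} :
    γ ∈ GamS M ↔ γ ∈ Gamma0 M ∧ (W1.lr M γ = 1 ∨ W1.lr M γ = -1) := Iff.rfl

end Fermat.Agent.S48.Mid
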