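import Fermat.Agent.S48.Mid.System

/-!
# S48 / Mid : the geometric input of Theorem A (the Kummer system of level `N`)
-/

set_option autoImplicit false

open CongruenceSubgroup
open scoped MatrixGroups

namespace Fermat.Agent.S48.Mid

/-- the Kummer system of `X(Gam N)` (`Mid/System.lean`). -/
theorem exists_kummer1 (N ℓ : ℕ) [NeZero N] [T24.Cond N] (hℓ : ℓ.Prime) :
    Nonempty (RHO.Kummer1 N ℓ (PER1.formT N (T24.Gam N)) (PER1.formD N (T24.Gam N))) :=
  exists_kummer1' N ℓ hℓ

end Fermat.Agent.S48.Mid
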