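import Fermat.Agent.S48.Mid.Defs
import Fermat.Agent.S48.PER1.FormOps
import Fermat.Agent.S48.PER1.Main
import Fermat.Agent.S48.RHO.Defs
import Fermat.Agent.S48.GES1.Main
import Fermat.Agent.S48.NVH.G0
import Fermat.Agent.S48.TNV.KappaLat
import Fermat.Agent.S48.T18.CCGen

/-!
# S48 / Mid : the Kummer system of `X(Gam N)` (wiring of PER1, GES1, NVH, TNV, T18)
-/

set_option autoImplicit false
set_option synthInstance.maxHeartbeats 400000

open CongruenceSubgroup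
open scoped MatrixGroups

noncomputable section

namespace Fermat.Agent.S48.Mid

open Fermat.Agent.T24 (Cond Gam FN)
open Fermat.Agent.GES (Vm)

variable (N : ℕ) [NeZero N] [Cond N]

/-- the Kummer classes. -/
abbrev WW (m : ℕ) : Type := GES1.VB (GES1.F0 N) m

/-- the representative of `u` in `Γ₀(N)`. -/
def repG (u : (ZMod N)ˣ) : Gamma0 N := ⟨PER1.rep N u, PER1.rep_mem N u⟩

/-- the diamond `⟨u⟩` on Kummer classes. -/
def dW (m : ℕ) (u : (ZMod N)ˣ) : Module.End (ZMod m) (WW N m) :=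
  GES1.diaV N m (repG N u)⁻¹

open Classical in
/-- the Hecke operator `T_r` on Kummer classes. -/
def tW (m : ℕ) [NeZero m] (r : ℕ) : Module.End (ZMod m) (WW N m) :=
  if h : r.Prime ∧ ¬ r ∣ N then
    haveI : NeZero r := ⟨h.1.ne_zero⟩
    (GES1.heckeT h.1 h.2 (NVH.G0_g0 N h.1 h.2)).TV m
  else 0

theorem tW_eq (m : ℕ) [NeZero m] {r : ℕ} [NeZero r] (hr : r.Prime) (hrN : ¬ r ∣ N) :
    tW N m r = (GES1.heckeT hr hrN (NVH.G0_g0 N hr hrN)).TV m := by
  rw [tW, dif_pos ⟨hr, hrN⟩]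

theorem dW_eq (m : ℕ) {r : ℕ} (hr : r.Prime) (hrN : ¬ r ∣ N) (u : (ZMod N)ˣ)
    (hu : (u : ZMod N) = (r : ZMod N)) : dW N m u = GES1.diaV N m (NVH.g0 N r) := by
  have h : u = W1.punit N r := by
    apply Units.ext
    rw [hu, W1.coe_punit (W1.coprime_of_prime hr hrN)]
  rw [dW, h]
  rfl

/-- linear endomorphisms as additive endomorphisms. -/
def endHom (m : ℕ) : Module.End (ZMod m) (WW N m) →* AddMonoid.End (WW N m) where
  toFun f := f.toAddMonoidHom
  map_one' := rfl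
  map_mul' _ _ := rfl

theorem endHom_apply (m : ℕ) (f : Module.End (ZMod m) (WW N m)) (w : WW N m) :
    endHom N m f w = f w := rfl

theorem good_prime {ℓ r : ℕ} (h : RHO.Good N ℓ r) : r.Prime := h.1

theorem good_not_dvd {ℓ r : ℕ} (h : RHO.Good N ℓ r) : ¬ r ∣ N := fun h' => h.2 (h'.mul_right ℓ)

theorem good_not_dvd' {ℓ r : ℕ} (h : RHO.Good N ℓ r) : ¬ r ∣ ℓ := fun h' => h.2 (h'.mul_left N)

theorem ccW {ℓ r : ℕ} (h : RHO.Good N ℓ r) : GES1.CCB (GES1.F0 N) r ℓ :=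
  GES1.ccT N (T24.T18.cc_gen N (good_prime N h) (good_not_dvd N h) ℓ (good_not_dvd' N h))

theorem tors_W (m : ℕ) (w : WW N m) : m • w = 0 := by
  rw [← Nat.cast_smul_eq_nsmul (ZMod m) m w, ZMod.natCast_self, zero_smul]

theorem es_W {ℓ r : ℕ} [NeZero ℓ] (h : RHO.Good N ℓ r) (u : (ZMod N)ˣ)
    (hu : (u : ZMod N) = (r : ZMod N)) (A : ValuationSubring Qb) (hA : A.LiesOverPrime r) (σ : GQ)
    (hσ : A.IsFrobeniusAt σ r) (w : WW N ℓ) :
    GES1.rhoB (GES1.F0 N) ℓ σ (GES1.rhoB (GES1.F0 N) ℓ σ w) + r • dW N ℓ u w =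
      tW N ℓ r (GES1.rhoB (GES1.F0 N) ℓ σ w) := by
  haveI : NeZero r := ⟨(good_prime N h).ne_zero⟩
  have h1 := GES1.esT (good_prime N h) (good_not_dvd N h)
    (NVH.G0_g0 N (good_prime N h) (good_not_dvd N h)) (ccW N h) A hA σ hσ
  have h2 := congrArg (fun f : Module.End (ZMod ℓ) (WW N ℓ) => f w) h1
  simp only [LinearMap.add_apply, LinearMap.sub_apply, Module.End.mul_apply, LinearMap.smul_apply,
    LinearMap.zero_apply] at h2
  rw [tW_eq N ℓ (good_prime N h) (good_not_dvd N h),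
    dW_eq N ℓ (good_prime N h) (good_not_dvd N h) u hu, ← Nat.cast_smul_eq_nsmul (ZMod ℓ) r]
  rw [sub_add_eq_add_sub, sub_eq_zero] at h2
  exact h2

/-- **The Kummer system of `X(Gam N)`.** -/
theorem exists_kummer1' (ℓ : ℕ) (hℓ : ℓ.Prime) :
    Nonempty (RHO.Kummer1 N ℓ (PER1.formT N (Gam N)) (PER1.formD N (Gam N))) := by
  haveI : NeZero ℓ := ⟨hℓ.ne_zero⟩
  haveI := PER1.finiteIndex_of_isMid N (Gam N)
  exact ⟨{
    H := PER1.Lat (Gam N)
    T := PER1.latT N (Gam N)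
    D := PER1.latD N (Gam N)
    link := PER1.lat_link N (Gam N)
    W := WW N ℓ
    tors := tors_W N ℓ
    act := (endHom N ℓ).comp (GES1.rhoB (GES1.F0 N) ℓ)
    smooth := fun w => GES1.exists_level_B (GES1.F0 N) ℓ w
    TW := fun r => endHom N ℓ (tW N ℓ r)
    DW := fun u => endHom N ℓ (dW N ℓ u)
    commT := fun r hr σ w => by
      haveI : NeZero r := ⟨(good_prime N hr).ne_zero⟩
      show tW N ℓ r (GES1.rhoB (GES1.F0 N) ℓ σ w) = GES1.rhoB (GES1.F0 N) ℓ σ (tW N ℓ r w)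
      rw [tW_eq N ℓ (good_prime N hr) (good_not_dvd N hr)]
      exact congrArg (fun f : Module.End (ZMod ℓ) (WW N ℓ) => f w)
        (GES1.HeckeAt.TV_comm_rhoB _ ℓ σ)
    commD := fun u σ w =>
      congrArg (fun f : Module.End (ZMod ℓ) (WW N ℓ) => f w) (GES1.diaV_comm_rhoB N ℓ _ σ)
    commDD := fun u u' w =>
      congrArg (fun f : Module.End (ZMod ℓ) (WW N ℓ) => f w) (GES1.diaV_comm N ℓ _ _)
    es := fun r hr u hu A hA σ hσ w => es_W N hr u hu A hA σ hσ w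
    unram := fun r hr A hA σ hσ w => by
      haveI : NeZero r := ⟨(good_prime N hr).ne_zero⟩
      show GES1.rhoB (GES1.F0 N) ℓ σ w = w
      rw [GES1.unramT (good_prime N hr) (ccW N hr) A hA σ hσ]
      rfl
    κ := T24.NV.kappa N ℓ
    κ_ker := fun h hh => T24.NV.kappa_ker N ℓ h hh
    κ_T := fun r hr h => by
      haveI : NeZero r := ⟨(good_prime N hr).ne_zero⟩
      show T24.NV.kappa N ℓ (PER1.latT N (Gam N) r h) = tW N ℓ r (T24.NV.kappa N ℓ h)
      rw [tW_eq N ℓ (good_prime N hr) (good_not_dvd N hr)]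
      exact T24.NV.kappa_latT N ℓ r (good_prime N hr) (good_not_dvd N hr) _ h
    κ_D := fun u h => T24.NV.kappa_latD N ℓ u (repG N u) (PER1.lr_rep N u) h }⟩

end Fermat.Agent.S48.Mid
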